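/-
S26, block CURVES (architect helper26), leaf ALG-SEP1.  Mathlib only.
-/
import Mathlib

set_option autoImplicit false

open IntermediateField

namespace Fermat.Agent.S26.Curves

variable {K F : Type*} [Field K] [Field F] [Algebra K F]

/-- If `Ω[F⁄K]` is spanned by `D u` and `F / K` is essentially of finite type then `F / K(u)` is
finite separable.
(`Ω[F⁄K⟮u⟯]` is the quotient of `Ω[F⁄K]` by the span of the `D x`, `x ∈ K⟮u⟯`
(`KaehlerDifferential.map_surjective`, `KaehlerDifferential.exact_mapBaseChange_map` /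
`KaehlerDifferential.map_D`), so it vanishes: `Algebra.FormallyUnramified K⟮u⟯ F`;
`Algebra.EssFiniteType.of_comp`; `Algebra.FormallyUnramified.iff_isSeparable`,
`Algebra.FormallyUnramified.finite_of_free`.) -/
theorem finite_separable_of_span_D [Algebra.EssFiniteType K F] (u : F)
    (hu : Submodule.span F {KaehlerDifferential.D K F u} = ⊤) :
    FiniteDimensional K⟮u⟯ F ∧ Algebra.IsSeparable K⟮u⟯ F := by
  have hD : KaehlerDifferential.D K⟮u⟯ F u = 0 := by
    have h := (KaehlerDifferential.D K⟮u⟯ F).map_algebraMap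
      (⟨u, IntermediateField.mem_adjoin_simple_self K u⟩ : K⟮u⟯)
    exact h
  have hzero : ∀ ω : Ω[F⁄K], KaehlerDifferential.map K K⟮u⟯ F F ω = 0 := by
    intro ω
    have hω : ω ∈ Submodule.span F {KaehlerDifferential.D K F u} := by
      rw [hu]
      exact Submodule.mem_top
    obtain ⟨c, rfl⟩ := Submodule.mem_span_singleton.1 hω
    rw [map_smul, KaehlerDifferential.map_D]
    change c • KaehlerDifferential.D K⟮u⟯ F u = 0
    rw [hD, smul_zero]
  have hsub : Subsingleton Ω[F⁄K⟮u⟯] := by
    refine ⟨fun a b => ?_⟩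
    obtain ⟨a', rfl⟩ := KaehlerDifferential.map_surjective K K⟮u⟯ F a
    obtain ⟨b', rfl⟩ := KaehlerDifferential.map_surjective K K⟮u⟯ F b
    rw [hzero, hzero]
  have hunr : Algebra.FormallyUnramified K⟮u⟯ F := ⟨hsub⟩
  have hess : Algebra.EssFiniteType K⟮u⟯ F := Algebra.EssFiniteType.of_comp K K⟮u⟯ F
  exact ⟨Algebra.FormallyUnramified.finite_of_free K⟮u⟯ F,
    Algebra.FormallyUnramified.isSeparable K⟮u⟯ F⟩

end Fermat.Agent.S26.Curves
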