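/-
S26, block CURVES (architect helper26), leaf ALG-SEP2.  Mathlib only.
-/
import Mathlib

set_option autoImplicit false

open IntermediateField

namespace Fermat.Agent.S26.Curves

variable {K F : Type*} [Field K] [Field F] [Algebra K F]

/-- The elements `y` of `F` with `D y ∈ F • D t` form an intermediate field. -/
def spanDField (t : F) : IntermediateField K F where
  carrier := {y | KaehlerDifferential.D K F y ∈ Submodule.span F {KaehlerDifferential.D K F t}}
  mul_mem' := by
    intro a b ha hb
    show KaehlerDifferential.D K F (a * b) ∈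
      Submodule.span F {KaehlerDifferential.D K F t}
    rw [Derivation.leibniz]
    exact add_mem (Submodule.smul_mem _ _ hb) (Submodule.smul_mem _ _ ha)
  one_mem' := by
    show KaehlerDifferential.D K F 1 ∈
      Submodule.span F {KaehlerDifferential.D K F t}
    rw [Derivation.map_one_eq_zero]
    exact zero_mem _
  add_mem' := by
    intro a b ha hb
    show KaehlerDifferential.D K F (a + b) ∈
      Submodule.span F {KaehlerDifferential.D K F t}
    rw [map_add]
    exact add_mem ha hb
  zero_mem' := by
    show KaehlerDifferential.D K F 0 ∈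
      Submodule.span F {KaehlerDifferential.D K F t}
    rw [map_zero]
    exact zero_mem _
  algebraMap_mem' := by
    intro r
    show KaehlerDifferential.D K F (algebraMap K F r) ∈
      Submodule.span F {KaehlerDifferential.D K F t}
    rw [Derivation.map_algebraMap]
    exact zero_mem _
  inv_mem' := by
    intro a ha
    show KaehlerDifferential.D K F a⁻¹ ∈
      Submodule.span F {KaehlerDifferential.D K F t}
    rw [Derivation.leibniz_inv]
    exact Submodule.smul_mem _ _ ha

theorem spanD_mem_of_mem_adjoin (t : F) (y : K⟮t⟯) :
    KaehlerDifferential.D K F (y : F) ∈ Submodule.span F {KaehlerDifferential.D K F t} := by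
  have h : K⟮t⟯ ≤ spanDField (K := K) t :=
    adjoin_simple_le_iff.2 (Submodule.subset_span rfl)
  exact h y.2

/-- Conversely, if `F / K(t)` is separable algebraic then `Ω[F⁄K]` is spanned by `D t`.
(`Ω[F⁄K⟮t⟯] = 0`, so `Ω[F⁄K]` is spanned by the `D x`, `x ∈ K⟮t⟯`
(`KaehlerDifferential.exact_mapBaseChange_map`); every `x ∈ K⟮t⟯` is `p(t)/q(t)`
(`IntermediateField.mem_adjoin_simple_iff`) and `D (p(t)/q(t)) ∈ F • D t` by the Leibniz rule.) -/
theorem span_D_of_separable (t : F) [Algebra.IsSeparable K⟮t⟯ F] :
    Submodule.span F {KaehlerDifferential.D K F t} = ⊤ := by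
  haveI : Algebra.FormallyUnramified K⟮t⟯ F := Algebra.FormallyUnramified.of_isSeparable K⟮t⟯ F
  have h1 : LinearMap.range (KaehlerDifferential.mapBaseChange K K⟮t⟯ F) = ⊤ := by
    rw [KaehlerDifferential.range_mapBaseChange, LinearMap.ker_eq_top]
    exact LinearMap.ext fun x => Subsingleton.elim _ _
  rw [eq_top_iff, ← h1]
  rintro _ ⟨x, rfl⟩
  induction x with
  | zero => simp
  | add a b ha hb => rw [map_add]; exact add_mem ha hb
  | tmul r s =>
    rw [KaehlerDifferential.mapBaseChange_tmul]
    refine Submodule.smul_mem _ _ ?_
    have hs : s ∈ Submodule.span K⟮t⟯ (Set.range (KaehlerDifferential.D K K⟮t⟯)) := by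
      rw [KaehlerDifferential.span_range_derivation]; trivial
    induction hs using Submodule.span_induction with
    | mem s hs =>
      obtain ⟨y, rfl⟩ := hs
      rw [KaehlerDifferential.map_D]
      exact spanD_mem_of_mem_adjoin t y
    | zero => simp
    | add a b _ _ ha hb => rw [map_add]; exact add_mem ha hb
    | smul c a _ ha =>
      rw [map_smul, ← algebraMap_smul F c]
      exact Submodule.smul_mem _ _ ha

end Fermat.Agent.S26.Curves
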